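import Mathlib
import Fermat.Agent.H26U.Def
import Fermat.Agent.H19.UnrLoc
import Fermat.Agent.H12.LO.Main

set_option autoImplicit false
set_option linter.unusedSectionVars false
set_option linter.style.haveILetI false

/-!
# Components which are unramified at an auxiliary prime
-/

noncomputable section

namespace Fermat.Agent.LU

open Fermat.Agent.TC Fermat.Agent.TW Fermat.Agent.CC Fermat.Agent.H25.GE Fermat.Agent.H25.TR
open Fermat.Agent.Ell Fermat.Agent.H25 Fermat.Agent.H25.PR Fermat.Agent.H25.PT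
open Fermat.Agent.H22 Fermat.Agent.H12.LL Fermat.Agent.TFin Fermat.Agent.H25.SB Fermat.Agent.H05
open Fermat.Agent.H25.TWM Fermat.Agent.H25.GD Fermat.Agent.H19
open Fermat.Agent.H04 (DN M2)
open IsLocalRing CongruenceSubgroup Matrix

/-- the unramified local condition -/
theorem lcond_unrC {O : Type} [CommRing O] [IsLocalRing O] [Finite (ResidueField O)]
    {rb : GQ →* Mt (ResidueField O)} (hr : lev.isOpen rb.ker) (q : Nat.Primes) :
    LCond (plv q q.2) rb 0 (UnrC q) :=
  Fermat.Agent.H19.UR.lunr hr q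

section Fam

variable {O : Type} [CommRing O] [IsLocalRing O] [IsNoetherianRing O]
    [IsAdicComplete (maximalIdeal O) O] {D : RD O (ResidueField O)}
    {S : Finset Nat.Primes} {bad : Finset ℕ} {κ : Type} [Finite κ] [Nonempty κ]
    (H : κ → CData D S bad) (hbar : HBar D S)

/-- the unramified condition for first order deformations of a family of components which are
unramified at `q` -/
theorem unrC_sHom {q : Nat.Primes} (h : ∀ i, UnrPt (H i) q)
    {d : AR H hbar → ResidueField O} (hd : IsDer O (CA H hbar).resB d) :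
    UnrC q (sHom hd (CA H hbar).rho) :=
  Fermat.Agent.H19.UR.unrC_sHom H hbar q (fun i x τ hτ g => by
    rw [((H i).ps x).comm τ g]
    exact h i x τ hτ g) hd

end Fam

section Lev

variable {O k : Type} [CommRing O] [IsDomain O] [IsDiscreteValuationRing O]
  [IsAdicComplete (maximalIdeal O) O] [Finite (ResidueField O)] [CharZero O] [Field k]
  {D : RD O k}
  {K : Type} [Field K] [IsAlgClosed K] [Algebra O K] [FaithfulSMul O K]
  {p : ℕ} [hp : Fact p.Prime] (hpO : (p : O) ∈ maximalIdeal O) (G : Geo p)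
  (hchi : IsCyc p D.chi) (hc : D.chi D.c = -1)
  {S : Finset Nat.Primes} {bad : Finset ℕ} (H : HIn D K p S bad)

/-- newform components of level prime to `q` are unramified at `q` -/
theorem unrPt_hin {q : Nat.Primes} (hqp : (q : ℕ) ≠ p) (h : ∀ x, ¬ (q : ℕ) ∣ (H.np x).N0) :
    UnrPt (H.cd hpO G hchi hc) q := fun x _ hσ g =>
  hin_unr' hpO G hchi hc H x q.2 hqp (h x) (plv_over q q.2) hσ g

/-- newform components of level squarefree at `q` are unramified at `q` when the residual traces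
at `q` do not satisfy the congruence for raising the level -/
theorem unrPt_of_tbar (hbar : HBar D S) {q : Nat.Primes} (hqp : (q : ℕ) ≠ p)
    (h : ∀ x, ¬ (q : ℕ) * q ∣ (H.np x).N0) {A : ValuationSubring Qb} (hA : A.LiesOverPrime q)
    {φ : GQ} (hφ : A.IsFrobeniusAt φ q) (htr : D.tbar φ ^ 2 ≠ (((q : ℕ) : k) + 1) ^ 2) :
    UnrPt (H.cd hpO G hchi hc) q :=
  unrPt_hin hpO G hchi hc H hqp fun x =>
    Fermat.Agent.H19.UR.not_dvd_lvl_of_tr hpO G hchi hc H hbar x q.2 hqp (h x) hA hφ htr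

end Lev

section Curve

variable {W : WeierstrassCurve ℤ} {p : ℕ} [hp : Fact p.Prime]
  (hΔ : W.Δ ≠ 0) (hirr : W.ModRepIsIrreducible p) (hp2 : p ≠ 2)
  (O : Type) [CommRing O] [IsDomain O] [IsDiscreteValuationRing O]
  [IsAdicComplete (maximalIdeal O) O] [Algebra ℤ_[p] O] [IsLocalHom (algebraMap ℤ_[p] O)]
  [Finite (ResidueField O)] [CharZero O]

/-- the component of the curve is unramified at the good primes -/
theorem unrPt_WC (S' : Finset Nat.Primes) (bad : Finset ℕ)
    (hS : ∀ q : Nat.Primes, q ∉ S' → (q : ℕ) ≠ p ∧ W.IsGoodPrimeFor q)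
    (hbad : ∀ ℓ : ℕ, ℓ.Prime → ℓ ∉ bad → ℓ ≠ p ∧ W.IsGoodPrimeFor ℓ)
    {q : Nat.Primes} (hqp : (q : ℕ) ≠ p) (hgood : W.IsGoodPrimeFor q) :
    UnrPt (WC hΔ hirr hp2 O S' bad hS hbad) q := by
  intro x σ hσ g
  exact tW_unr' (O := O) q.2 hqp hgood (plv_over q q.2) hσ g

/-- the level of the points at an auxiliary prime -/
theorem AuxOk.not_dvd {S' : Finset Nat.Primes} {bad : Finset ℕ} {K : Type} [Field K]
    [IsAlgClosed K] [Algebra O K] [FaithfulSMul O K]
    (hpO : (p : O) ∈ maximalIdeal O) (Ge : Geo p)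
    (H : HIn (RDW hΔ hirr hp2 O) K p S' bad) (hbar : HBar (RDW hΔ hirr hp2 O) S')
    (x : H.X) {q : ℕ} (hq : q.Prime) (hU : AuxOk W p q) (hqq : ¬ q * q ∣ (H.np x).N0) :
    ¬ q ∣ (H.np x).N0 :=
  H12.LO.not_dvd_of_unOk hpO Ge H hbar x hq ⟨hU.ne, hU.unr, hU.tr⟩ hqq

/-- newform components are unramified at the auxiliary primes -/
theorem AuxOk.unrPt {S' : Finset Nat.Primes} {bad : Finset ℕ} {K : Type} [Field K]
    [IsAlgClosed K] [Algebra O K] [FaithfulSMul O K]
    (hpO : (p : O) ∈ maximalIdeal O) (Ge : Geo p)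
    (H : HIn (RDW hΔ hirr hp2 O) K p S' bad) (hbar : HBar (RDW hΔ hirr hp2 O) S')
    {q : Nat.Primes} (hU : AuxOk W p q) (hqq : ∀ x, ¬ (q : ℕ) * q ∣ (H.np x).N0) :
    UnrPt (H.cd hpO Ge (RDW_isCyc hΔ hirr hp2) (RDW_hc hΔ hirr hp2)) q :=
  unrPt_hin hpO Ge _ _ H hU.ne fun x => hU.not_dvd hΔ hirr hp2 O hpO Ge H hbar x q.2 (hqq x)

end Curve

end Fermat.Agent.LU
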